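import Mathlib

/-!
# Stabilisers of points of the upper half plane in `SL(2, ℤ)` (elliptic points)

Wrappers around `ModularGroup.stabilizer_I`, `ModularGroup.stabilizer_ρ`,
`ModularGroup.stabilizer_of_ne`.
-/

set_option autoImplicit false

open UpperHalfPlane ModularGroup MatrixGroups
open scoped Modular

namespace Fermat.Agent.S20_helper25

/-- The stabiliser of `τ` in `SL(2, ℤ)`. -/
noncomputable abbrev Stab (τ : ℍ) : Subgroup SL(2, ℤ) := MulAction.stabilizer SL(2, ℤ) τ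

theorem mem_Stab {τ : ℍ} {g : SL(2, ℤ)} : g ∈ Stab τ ↔ g • τ = τ :=
  MulAction.mem_stabilizer_iff

theorem neg_one_mem_Stab (τ : ℍ) : (-1 : SL(2, ℤ)) ∈ Stab τ := by
  rw [mem_Stab, SL_neg_smul, one_smul]

theorem neg_mem_Stab {τ : ℍ} {g : SL(2, ℤ)} (hg : g ∈ Stab τ) : -g ∈ Stab τ := by
  rw [mem_Stab] at hg ⊢
  rw [SL_neg_smul, hg]

theorem Stab_smul (g : SL(2, ℤ)) (τ : ℍ) :
    Stab (g • τ) = (Stab τ).map (MulAut.conj g).toMonoidHom :=
  MulAction.stabilizer_smul_eq_stabilizer_map_conj g τ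

theorem mem_Stab_smul_iff {g h : SL(2, ℤ)} {τ : ℍ} :
    h ∈ Stab (g • τ) ↔ g⁻¹ * h * g ∈ Stab τ := by
  rw [mem_Stab, mem_Stab, mul_smul, mul_smul, inv_smul_eq_iff]

theorem conj_mem_Stab_smul {g γ : SL(2, ℤ)} {τ : ℍ} (hγ : γ ∈ Stab τ) :
    g * γ * g⁻¹ ∈ Stab (g • τ) := by
  rw [mem_Stab_smul_iff]
  simpa [mul_assoc] using hγ

theorem card_Stab_smul (g : SL(2, ℤ)) (τ : ℍ) : Nat.card (Stab (g • τ)) = Nat.card (Stab τ) := by
  rw [Stab_smul]
  exact Nat.card_congr ((Stab τ).equivMapOfInjective _ (MulAut.conj g).injective).symm.toEquiv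

/-! ### The two special points -/

theorem ST_sq : (S * T) ^ 2 = T⁻¹ * S := by decide

theorem mem_Stab_I {g : SL(2, ℤ)} : g ∈ Stab I ↔ g = 1 ∨ g = -1 ∨ g = S ∨ g = -S := by
  rw [mem_Stab, stabilizer_I]
  simp

theorem mem_Stab_rho {g : SL(2, ℤ)} :
    g ∈ Stab ρ ↔ g = 1 ∨ g = -1 ∨ g = S * T ∨ g = -(S * T) ∨ g = (S * T) ^ 2 ∨
      g = -(S * T) ^ 2 := by
  rw [mem_Stab, stabilizer_ρ, ST_sq]
  simp

theorem S_mem_Stab_I : S ∈ Stab I := mem_Stab_I.mpr (by simp)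

theorem ST_mem_Stab_rho : S * T ∈ Stab ρ := mem_Stab_rho.mpr (by simp)

theorem S_sq : S ^ 2 = -1 := by decide
theorem S_pow_three : S ^ 3 = -S := by decide
theorem S_pow_four : S ^ 4 = 1 := by decide
theorem ST_pow_three : (S * T) ^ 3 = -1 := by decide
theorem ST_pow_four : (S * T) ^ 4 = -(S * T) := by decide
theorem ST_pow_five : (S * T) ^ 5 = -(S * T) ^ 2 := by decide
theorem ST_pow_six : (S * T) ^ 6 = 1 := by decide

theorem Stab_I_eq_zpowers : Stab I = Subgroup.zpowers S := by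
  apply le_antisymm
  · intro g hg
    rcases mem_Stab_I.mp hg with rfl | rfl | rfl | rfl
    · exact one_mem _
    · rw [← S_sq]; exact Subgroup.pow_mem _ (Subgroup.mem_zpowers S) 2
    · exact Subgroup.mem_zpowers S
    · rw [← S_pow_three]; exact Subgroup.pow_mem _ (Subgroup.mem_zpowers S) 3
  · rw [Subgroup.zpowers_le]
    exact S_mem_Stab_I

theorem Stab_rho_eq_zpowers : Stab ρ = Subgroup.zpowers (S * T) := by
  apply le_antisymm
  · intro g hg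
    rcases mem_Stab_rho.mp hg with rfl | rfl | rfl | rfl | rfl | rfl
    · exact one_mem _
    · rw [← ST_pow_three]; exact Subgroup.pow_mem _ (Subgroup.mem_zpowers _) 3
    · exact Subgroup.mem_zpowers _
    · rw [← ST_pow_four]; exact Subgroup.pow_mem _ (Subgroup.mem_zpowers _) 4
    · exact Subgroup.pow_mem _ (Subgroup.mem_zpowers _) 2
    · rw [← ST_pow_five]; exact Subgroup.pow_mem _ (Subgroup.mem_zpowers _) 5
  · rw [Subgroup.zpowers_le]
    exact ST_mem_Stab_rho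

theorem coe_Stab_I : (Stab I : Set SL(2, ℤ)) = ({1, -1, S, -S} : Finset SL(2, ℤ)) := by
  ext g
  rw [SetLike.mem_coe, mem_Stab, stabilizer_I]
  rfl

theorem coe_Stab_rho : (Stab ρ : Set SL(2, ℤ)) =
    ({1, -1, S * T, -(S * T), T⁻¹ * S, -(T⁻¹ * S)} : Finset SL(2, ℤ)) := by
  ext g
  rw [SetLike.mem_coe, mem_Stab, stabilizer_ρ]
  rfl

theorem card_Stab_I : Nat.card (Stab I) = 4 := by
  have h : Nat.card (Stab I) = Nat.card ((Stab I : Set SL(2, ℤ))) := rfl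
  rw [h, coe_Stab_I, Nat.card_coe_set_eq, Set.ncard_coe_finset]
  decide

theorem card_Stab_rho : Nat.card (Stab ρ) = 6 := by
  have h : Nat.card (Stab ρ) = Nat.card ((Stab ρ : Set SL(2, ℤ))) := rfl
  rw [h, coe_Stab_rho, Nat.card_coe_set_eq, Set.ncard_coe_finset]
  decide


/-! ### Classification of points with non-trivial stabiliser -/

theorem one_add_rho : ((1 : ℝ) +ᵥ ρ : ℍ) = T • ρ := (modular_T_smul ρ).symm

/-- A point fixed by an element other than `±1` is `SL(2, ℤ)`-equivalent to `I` or `ρ`. -/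
theorem exists_smul_eq_I_or_rho {τ : ℍ} {γ : SL(2, ℤ)} (hγ : γ ∈ Stab τ) (h1 : γ ≠ 1)
    (hm1 : γ ≠ -1) : ∃ g : SL(2, ℤ), g • τ = I ∨ g • τ = ρ := by
  obtain ⟨g, hg⟩ := exists_smul_mem_fd τ
  have hfix : (g * γ * g⁻¹) • (g • τ) = g • τ := mem_Stab.mp (conj_mem_Stab_smul hγ)
  by_cases hI : g • τ = I
  · exact ⟨g, Or.inl hI⟩
  by_cases hρ : g • τ = ρ
  · exact ⟨g, Or.inr hρ⟩
  by_cases hρ' : g • τ = (1 : ℝ) +ᵥ ρ
  · refine ⟨T⁻¹ * g, Or.inr ?_⟩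
    rw [mul_smul, hρ', one_add_rho, inv_smul_smul]
  exfalso
  rcases stabilizer_of_ne hg hfix hI hρ hρ' with h | h
  · apply h1
    have : γ = g⁻¹ * (g * γ * g⁻¹) * g := by group
    rw [this, h]; group
  · apply hm1
    have : γ = g⁻¹ * (g * γ * g⁻¹) * g := by group
    rw [this, h]
    simp

/-- If `τ` is equivalent neither to `I` nor to `ρ`, its stabiliser is `{±1}`. -/
theorem eq_one_or_neg_one_of_mem_Stab {τ : ℍ} (hI : ∀ g : SL(2, ℤ), g • τ ≠ I)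
    (hρ : ∀ g : SL(2, ℤ), g • τ ≠ ρ) {γ : SL(2, ℤ)} (hγ : γ ∈ Stab τ) : γ = 1 ∨ γ = -1 := by
  by_contra h
  push Not at h
  obtain ⟨g, hg | hg⟩ := exists_smul_eq_I_or_rho hγ h.1 h.2
  · exact hI g hg
  · exact hρ g hg

theorem one_ne_neg_one : (1 : SL(2, ℤ)) ≠ -1 := by decide

theorem Stab_eq_zpowers_neg_one {τ : ℍ} (hI : ∀ g : SL(2, ℤ), g • τ ≠ I)
    (hρ : ∀ g : SL(2, ℤ), g • τ ≠ ρ) : Stab τ = Subgroup.zpowers (-1) := by
  apply le_antisymm
  · intro γ hγ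
    rcases eq_one_or_neg_one_of_mem_Stab hI hρ hγ with rfl | rfl
    · exact one_mem _
    · exact Subgroup.mem_zpowers _
  · rw [Subgroup.zpowers_le]
    exact neg_one_mem_Stab τ

theorem card_Stab_of_generic {τ : ℍ} (hI : ∀ g : SL(2, ℤ), g • τ ≠ I)
    (hρ : ∀ g : SL(2, ℤ), g • τ ≠ ρ) : Nat.card (Stab τ) = 2 := by
  have hset : (Stab τ : Set SL(2, ℤ)) = (({1, -1} : Finset SL(2, ℤ)) : Set SL(2, ℤ)) := by
    ext γ
    simp only [SetLike.mem_coe, Finset.coe_insert, Finset.coe_singleton, Set.mem_insert_iff,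
      Set.mem_singleton_iff]
    constructor
    · exact eq_one_or_neg_one_of_mem_Stab hI hρ
    · rintro (rfl | rfl)
      · exact one_mem _
      · exact neg_one_mem_Stab τ
  have h : Nat.card (Stab τ) = Nat.card ((Stab τ : Set SL(2, ℤ))) := rfl
  rw [h, hset, Nat.card_coe_set_eq, Set.ncard_coe_finset]
  decide

theorem Stab_of_smul_eq {τ τ' : ℍ} {g : SL(2, ℤ)} (hg : g • τ = τ') {γ₀ : SL(2, ℤ)}
    (h : Stab τ' = Subgroup.zpowers γ₀) : Stab τ = Subgroup.zpowers (g⁻¹ * γ₀ * g) := by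
  have hτ : τ = g⁻¹ • τ' := by rw [← hg, inv_smul_smul]
  rw [hτ, Stab_smul, h, MonoidHom.map_zpowers]
  simp

/-- The trichotomy: generic points, the orbit of `I`, the orbit of `ρ`. -/
theorem Stab_trichotomy (τ : ℍ) :
    ((∀ g : SL(2, ℤ), g • τ ≠ I) ∧ (∀ g : SL(2, ℤ), g • τ ≠ ρ) ∧
        Stab τ = Subgroup.zpowers (-1) ∧ Nat.card (Stab τ) = 2) ∨
    (∃ g : SL(2, ℤ), g • τ = I ∧ Stab τ = Subgroup.zpowers (g⁻¹ * S * g) ∧
        Nat.card (Stab τ) = 4) ∨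
    (∃ g : SL(2, ℤ), g • τ = ρ ∧ Stab τ = Subgroup.zpowers (g⁻¹ * (S * T) * g) ∧
        Nat.card (Stab τ) = 6) := by
  by_cases hI : ∃ g : SL(2, ℤ), g • τ = I
  · obtain ⟨g, hg⟩ := hI
    refine Or.inr (Or.inl ⟨g, hg, Stab_of_smul_eq hg Stab_I_eq_zpowers, ?_⟩)
    rw [← card_Stab_smul g τ, hg, card_Stab_I]
  by_cases hρ : ∃ g : SL(2, ℤ), g • τ = ρ
  · obtain ⟨g, hg⟩ := hρ
    refine Or.inr (Or.inr ⟨g, hg, Stab_of_smul_eq hg Stab_rho_eq_zpowers, ?_⟩)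
    rw [← card_Stab_smul g τ, hg, card_Stab_rho]
  push Not at hI hρ
  exact Or.inl ⟨hI, hρ, Stab_eq_zpowers_neg_one hI hρ, card_Stab_of_generic hI hρ⟩

theorem card_Stab (τ : ℍ) :
    Nat.card (Stab τ) = 2 ∨ Nat.card (Stab τ) = 4 ∨ Nat.card (Stab τ) = 6 := by
  rcases Stab_trichotomy τ with h | ⟨g, -, -, h⟩ | ⟨g, -, -, h⟩
  · exact Or.inl h.2.2.2
  · exact Or.inr (Or.inl h)
  · exact Or.inr (Or.inr h)

/-- `I` and `ρ` are not equivalent. -/
theorem smul_I_ne_rho (g : SL(2, ℤ)) : g • I ≠ ρ := by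
  intro h
  have := card_Stab_smul g I
  rw [h, card_Stab_rho, card_Stab_I] at this
  omega

theorem card_Stab_eq_four_iff (τ : ℍ) : Nat.card (Stab τ) = 4 ↔ ∃ g : SL(2, ℤ), g • τ = I := by
  constructor
  · intro h
    rcases Stab_trichotomy τ with h' | ⟨g, hg, -, -⟩ | ⟨g, -, -, h'⟩
    · rw [h'.2.2.2] at h; omega
    · exact ⟨g, hg⟩
    · rw [h'] at h; omega
  · rintro ⟨g, hg⟩
    rw [← card_Stab_smul g τ, hg, card_Stab_I]

theorem card_Stab_eq_six_iff (τ : ℍ) : Nat.card (Stab τ) = 6 ↔ ∃ g : SL(2, ℤ), g • τ = ρ := by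
  constructor
  · intro h
    rcases Stab_trichotomy τ with h' | ⟨g, -, -, h'⟩ | ⟨g, hg, -, -⟩
    · rw [h'.2.2.2] at h; omega
    · rw [h'] at h; omega
    · exact ⟨g, hg⟩
  · rintro ⟨g, hg⟩
    rw [← card_Stab_smul g τ, hg, card_Stab_rho]


/-! ### Traces and orders -/

/-- Cayley–Hamilton for `SL(2, ℤ)`. -/
theorem coe_mul_self (γ : SL(2, ℤ)) :
    (γ : Matrix (Fin 2) (Fin 2) ℤ) * (γ : Matrix (Fin 2) (Fin 2) ℤ) =
      ((γ 0 0 + γ 1 1 : ℤ)) • (γ : Matrix (Fin 2) (Fin 2) ℤ) - 1 := by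
  have hdet : γ 0 0 * γ 1 1 - γ 0 1 * γ 1 0 = 1 := by
    have := γ.det_coe
    rwa [Matrix.det_fin_two] at this
  ext i j
  fin_cases i <;> fin_cases j <;>
    simp [Matrix.mul_apply, Fin.sum_univ_two, -zsmul_eq_mul, Matrix.smul_apply] <;> linarith [hdet]

theorem sq_eq_neg_one_of_trace_eq_zero {γ : SL(2, ℤ)} (h : γ 0 0 + γ 1 1 = 0) : γ ^ 2 = -1 := by
  apply Subtype.ext
  have := coe_mul_self γ
  rw [h, zero_smul, zero_sub] at this
  simp [sq, this]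

theorem pow_three_eq_neg_one_of_trace_eq_one {γ : SL(2, ℤ)} (h : γ 0 0 + γ 1 1 = 1) :
    γ ^ 3 = -1 := by
  apply Subtype.ext
  have h2 := coe_mul_self γ
  rw [h, one_smul] at h2
  have h3 : (γ : Matrix (Fin 2) (Fin 2) ℤ) * γ * γ = -1 := by
    rw [h2, sub_mul, h2, one_mul]; abel
  simp [pow_succ, h3]

theorem pow_three_eq_one_of_trace_eq_neg_one {γ : SL(2, ℤ)} (h : γ 0 0 + γ 1 1 = -1) :
    γ ^ 3 = 1 := by
  apply Subtype.ext
  have h2 := coe_mul_self γ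
  rw [h, neg_one_smul] at h2
  have h3 : (γ : Matrix (Fin 2) (Fin 2) ℤ) * γ * γ = 1 := by
    rw [h2, sub_mul, neg_mul, h2, one_mul]; abel
  simp [pow_succ, h3]

/-- Elements of a stabiliser other than `±1` have trace `0`, `1` or `-1`. -/
theorem trace_of_mem_Stab {τ : ℍ} {γ : SL(2, ℤ)} (hγ : γ ∈ Stab τ) :
    γ = 1 ∨ γ = -1 ∨ γ 0 0 + γ 1 1 = 0 ∨ γ 0 0 + γ 1 1 = 1 ∨ γ 0 0 + γ 1 1 = -1 := by
  by_cases h1 : γ = 1
  · exact Or.inl h1
  by_cases hm1 : γ = -1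
  · exact Or.inr (Or.inl hm1)
  right; right
  have htr : ∀ (g δ : SL(2, ℤ)), (g⁻¹ * δ * g) 0 0 + (g⁻¹ * δ * g) 1 1 = δ 0 0 + δ 1 1 := by
    intro g δ
    have h1 := Matrix.trace_mul_cycle (g⁻¹ : SL(2, ℤ)).1 δ.1 g.1
    have h2 : g.1 * (g⁻¹ : SL(2, ℤ)).1 = 1 := by
      rw [← Matrix.SpecialLinearGroup.coe_mul, mul_inv_cancel]; rfl
    rw [h2, one_mul] at h1
    simpa [Matrix.trace_fin_two, Matrix.SpecialLinearGroup.coe_mul] using h1
  obtain ⟨g, hg | hg⟩ := exists_smul_eq_I_or_rho hγ h1 hm1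
  · have hτ : τ = g⁻¹ • I := by rw [← hg, inv_smul_smul]
    rw [hτ, mem_Stab_smul_iff, inv_inv] at hγ
    have hγ' : γ = g⁻¹ * (g * γ * g⁻¹) * g := by group
    rw [hγ', htr]
    rcases mem_Stab_I.mp hγ with h | h | h | h <;> rw [h]
    · exfalso; apply h1; rw [hγ', h]; group
    · exfalso; apply hm1; rw [hγ', h]; simp
    · left; decide
    · left; decide
  · have hτ : τ = g⁻¹ • ρ := by rw [← hg, inv_smul_smul]
    rw [hτ, mem_Stab_smul_iff, inv_inv] at hγ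
    have hγ' : γ = g⁻¹ * (g * γ * g⁻¹) * g := by group
    rw [hγ', htr]
    rcases mem_Stab_rho.mp hγ with h | h | h | h | h | h <;> rw [h]
    · exfalso; apply h1; rw [hγ', h]; group
    · exfalso; apply hm1; rw [hγ', h]; simp
    · right; left; decide
    · right; right; decide
    · right; right; decide
    · right; left; decide

end Fermat.Agent.S20_helper25
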