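import Fermat.Agent.S20_helper25.Elliptic

/-!
# Denominators `c τ + d` of stabiliser elements

`γ ↦ c τ + d` is an injective group homomorphism `Stab τ →* ℂˣ`; for a generator of `Stab τ`
its value is a primitive root of unity of order `|Stab τ|`.
-/

set_option autoImplicit false

open UpperHalfPlane ModularGroup MatrixGroups
open scoped Modular

namespace Fermat.Agent.S20_helper25

/-! ### Denominators at fixed points -/

/-- The fixed point equation in polynomial form. -/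
theorem fixed_eq {τ : ℍ} {γ : SL(2, ℤ)} (hγ : γ ∈ Stab τ) :
    (γ 0 0 : ℂ) * τ + γ 0 1 = τ * ((γ 1 0 : ℂ) * τ + γ 1 1) := by
  have h := mem_Stab.mp hγ
  have h2 : ((γ • τ : ℍ) : ℂ) = τ := by rw [h]
  rw [coe_specialLinearGroup_apply] at h2
  have hne : ((γ 1 0 : ℂ) * τ + γ 1 1) ≠ 0 := by
    have := denom_ne_zero (γ : GL (Fin 2) ℝ) τ
    rwa [ModularGroup.denom_apply] at this
  simp only [algebraMap_int_eq, Int.coe_castRingHom, Complex.ofReal_intCast] at h2
  rw [div_eq_iff hne] at h2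
  exact h2

/-- The denominator `c τ + d` of `γ` at `τ`, as a function on `SL(2, ℤ)`. -/
noncomputable def den (γ : SL(2, ℤ)) (τ : ℍ) : ℂ := (γ 1 0 : ℂ) * τ + γ 1 1

theorem den_eq_denom (γ : SL(2, ℤ)) (τ : ℍ) : den γ τ = denom (γ : GL (Fin 2) ℝ) τ :=
  (ModularGroup.denom_apply γ τ).symm

theorem den_ne_zero (γ : SL(2, ℤ)) (τ : ℍ) : den γ τ ≠ 0 := by
  rw [den_eq_denom]; exact denom_ne_zero _ τ

theorem den_one (τ : ℍ) : den 1 τ = 1 := by simp [den]

theorem den_neg (γ : SL(2, ℤ)) (τ : ℍ) : den (-γ) τ = - den γ τ := by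
  simp [den]; ring

theorem den_mul_of_mem_Stab {τ : ℍ} (γ : SL(2, ℤ)) {γ' : SL(2, ℤ)} (h' : γ' ∈ Stab τ) :
    den (γ * γ') τ = den γ τ * den γ' τ := by
  have h := fixed_eq h'
  simp only [den, Matrix.SpecialLinearGroup.coe_mul, Matrix.mul_apply,
    Fin.sum_univ_two, Int.cast_add, Int.cast_mul]
  linear_combination (γ 1 0 : ℂ) * h

theorem den_pow_of_mem_Stab {τ : ℍ} {γ : SL(2, ℤ)} (hγ : γ ∈ Stab τ) (n : ℕ) :
    den (γ ^ n) τ = den γ τ ^ n := by
  induction n with
  | zero => simp [den_one]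
  | succ n ih => rw [pow_succ, den_mul_of_mem_Stab _ hγ, ih, pow_succ]

/-- On the stabiliser, `γ ↦ c τ + d` is injective: only `1` has denominator `1`. -/
theorem eq_one_of_den_eq_one {τ : ℍ} {γ : SL(2, ℤ)} (hγ : γ ∈ Stab τ) (h : den γ τ = 1) :
    γ = 1 := by
  have hfix := fixed_eq hγ
  have hdet : γ 0 0 * γ 1 1 - γ 0 1 * γ 1 0 = 1 := by
    have := γ.det_coe
    rwa [Matrix.det_fin_two] at this
  have him := congrArg Complex.im h
  simp only [den, Complex.add_im, Complex.mul_im, Complex.intCast_re, Complex.intCast_im,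
    zero_mul, add_zero, Complex.one_im, UpperHalfPlane.coe_im] at him
  have hc : γ 1 0 = 0 := by
    have : (γ 1 0 : ℝ) = 0 := by
      rcases mul_eq_zero.mp him with h0 | h0
      · exact h0
      · exact absurd h0 τ.im_ne_zero
    exact_mod_cast this
  have hd : γ 1 1 = 1 := by
    have h' := h
    simp only [den, hc, Int.cast_zero, zero_mul, zero_add] at h'
    exact_mod_cast h'
  have ha : γ 0 0 = 1 := by
    rw [hc, hd] at hdet; linarith
  have hb : γ 0 1 = 0 := by
    rw [ha, hc, hd] at hfix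
    have : ((γ 0 1 : ℤ) : ℂ) = 0 := by
      have h3 : (1 : ℂ) * τ + (γ 0 1 : ℂ) = τ * ((0 : ℂ) * τ + 1) := by exact_mod_cast hfix
      linear_combination h3
    exact_mod_cast this
  ext i j
  fin_cases i <;> fin_cases j <;> simp [ha, hb, hc, hd]

/-- The denominator as a group homomorphism `Stab τ →* ℂˣ`. -/
noncomputable def denHom (τ : ℍ) : Stab τ →* ℂˣ where
  toFun γ := Units.mk0 (den γ.1 τ) (den_ne_zero _ _)
  map_one' := by
    apply Units.ext
    simp [den_one]
  map_mul' γ γ' := by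
    apply Units.ext
    simp [den_mul_of_mem_Stab γ.1 γ'.2]

theorem denHom_apply (τ : ℍ) (γ : Stab τ) : ((denHom τ γ : ℂˣ) : ℂ) = den γ.1 τ := rfl

theorem denHom_injective (τ : ℍ) : Function.Injective (denHom τ) := by
  rw [injective_iff_map_eq_one]
  intro γ hγ
  have h : den γ.1 τ = 1 := by
    rw [← denHom_apply, hγ]; rfl
  exact Subtype.ext (eq_one_of_den_eq_one γ.2 h)

/-- Denominators of stabiliser elements are roots of unity of order dividing `|Stab τ|`. -/
theorem den_pow_card {τ : ℍ} {γ : SL(2, ℤ)} (hγ : γ ∈ Stab τ) :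
    den γ τ ^ Nat.card (Stab τ) = 1 := by
  have hfin : Finite (Stab τ) := by
    apply Nat.finite_of_card_ne_zero
    rcases card_Stab τ with h | h | h <;> omega
  have h1 : (⟨γ, hγ⟩ : Stab τ) ^ Nat.card (Stab τ) = 1 := pow_card_eq_one'
  have h2 : γ ^ Nat.card (Stab τ) = 1 := by
    have := congrArg Subtype.val h1
    simpa using this
  rw [← den_pow_of_mem_Stab hγ, h2, den_one]

theorem ST_10 : (S * T) 1 0 = 1 := by decide
theorem ST_11 : (S * T) 1 1 = 1 := by decide
theorem ST_00 : (S * T) 0 0 = 0 := by decide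
theorem ST_01 : (S * T) 0 1 = -1 := by decide

theorem den_S (τ : ℍ) : den S τ = τ := by
  simp [den, S]

theorem den_ST (τ : ℍ) : den (S * T) τ = τ + 1 := by
  simp [den, ST_10, ST_11]

theorem den_S_I : den S I = Complex.I := by rw [den_S]; rfl

theorem den_ST_rho : den (S * T) ρ = (ρ : ℂ) + 1 := den_ST ρ

theorem rho_add_one_sq : ((ρ : ℂ) + 1) ^ 2 = ρ := by
  have := ρ_sq
  linear_combination this

theorem rho_cube : (ρ : ℂ) ^ 3 = 1 := by
  have := ρ_sq
  linear_combination ((ρ : ℂ) - 1) * this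

theorem rho_add_one_pow_six : ((ρ : ℂ) + 1) ^ 6 = 1 := by
  have h : ((ρ : ℂ) + 1) ^ 6 = (((ρ : ℂ) + 1) ^ 2) ^ 3 := by ring
  rw [h, rho_add_one_sq, rho_cube]


/-- For a generator `γ₀` of the (cyclic) stabiliser, `c τ + d` is a primitive root of unity of
order `|Stab τ|`. -/
theorem isPrimitiveRoot_den {τ : ℍ} {γ₀ : SL(2, ℤ)} (h : Stab τ = Subgroup.zpowers γ₀) :
    IsPrimitiveRoot (den γ₀ τ) (Nat.card (Stab τ)) := by
  have hγ₀ : γ₀ ∈ Stab τ := by rw [h]; exact Subgroup.mem_zpowers γ₀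
  have h1 : orderOf (denHom τ ⟨γ₀, hγ₀⟩) = orderOf (⟨γ₀, hγ₀⟩ : Stab τ) :=
    orderOf_injective (denHom τ) (denHom_injective τ) _
  have h2 : orderOf (⟨γ₀, hγ₀⟩ : Stab τ) = orderOf γ₀ := Subgroup.orderOf_mk γ₀ hγ₀
  have h3 : orderOf γ₀ = Nat.card (Stab τ) := by
    rw [h, Nat.card_zpowers]
  have h4 : IsPrimitiveRoot (denHom τ ⟨γ₀, hγ₀⟩) (Nat.card (Stab τ)) := by
    rw [← h3, ← h2, ← h1]
    exact IsPrimitiveRoot.orderOf _
  exact IsPrimitiveRoot.coe_units_iff.mpr h4

/-- The derivative `(c τ + d)⁻²` of a generator at the fixed point is governed by `(c τ + d)²`,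
which is a primitive root of unity of order `|Stab τ| / 2`. -/
theorem isPrimitiveRoot_den_sq {τ : ℍ} {γ₀ : SL(2, ℤ)} (h : Stab τ = Subgroup.zpowers γ₀) :
    IsPrimitiveRoot (den γ₀ τ ^ 2) (Nat.card (Stab τ) / 2) := by
  have hp := isPrimitiveRoot_den h
  have hcard : Nat.card (Stab τ) = 2 * (Nat.card (Stab τ) / 2) := by
    rcases card_Stab τ with h | h | h <;> rw [h]
  have hpos : 0 < Nat.card (Stab τ) := by
    rcases card_Stab τ with h | h | h <;> omega
  exact hp.pow hpos hcard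

end Fermat.Agent.S20_helper25
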