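import Fermat.Agent.S20_helper25.Elliptic

/-!
# Local form of proper discontinuity for `SL(2, ℤ)` acting on `ℍ`
-/

set_option autoImplicit false

open UpperHalfPlane ModularGroup MatrixGroups Matrix.SpecialLinearGroup
open scoped Modular Topology

namespace Fermat.Agent.S20_helper25

theorem smul_eq_mapGL_smul (γ : SL(2, ℤ)) (z : ℍ) : γ • z = (mapGL ℝ γ) • z := rfl

theorem continuous_SL_smul (γ : SL(2, ℤ)) : Continuous fun z : ℍ => γ • z := by
  have : Continuous fun z : ℍ => (mapGL ℝ γ) • z := continuous_const_smul _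
  exact this

/-- `SL(2, ℤ)` acts properly discontinuously on `ℍ` (finiteness statement). -/
theorem finite_SL_inter {K L : Set ℍ} (hK : IsCompact K) (hL : IsCompact L) :
    Set.Finite {γ : SL(2, ℤ) | ((γ • ·) '' K ∩ L).Nonempty} := by
  have h := (properlyDiscontinuousSL2ZRange).finite_disjoint_inter_image hK hL
  let f : SL(2, ℤ) → 𝒮ℒ := fun γ => ⟨mapGL ℝ γ, ⟨γ, rfl⟩⟩
  have hf : Function.Injective f := by
    intro a b hab
    have : mapGL ℝ a = mapGL ℝ b := congrArg Subtype.val hab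
    exact (mapGL_injective (R := ℤ) (S := ℝ)) this
  refine (h.preimage (hf.injOn)).subset ?_
  intro γ hγ
  exact hγ

/-- Local form of proper discontinuity: near `τ₀`, only stabiliser elements identify points. -/
theorem exists_nhds_forall_mem_Stab (τ₀ : ℍ) :
    ∃ U ∈ 𝓝 τ₀, ∀ γ : SL(2, ℤ), ∀ z ∈ U, γ • z ∈ U → γ ∈ Stab τ₀ := by
  simp only [mem_Stab]
  obtain ⟨K, hK, hKn⟩ := exists_compact_mem_nhds τ₀
  have hF := finite_SL_inter hK hK
  have hsep : ∀ γ : SL(2, ℤ), ∃ Uγ ∈ 𝓝 τ₀, γ • τ₀ ≠ τ₀ → ∀ z ∈ Uγ, γ • z ∉ Uγ := by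
    intro γ
    by_cases hγ : γ • τ₀ = τ₀
    · exact ⟨Set.univ, Filter.univ_mem, fun h => absurd hγ h⟩
    · obtain ⟨u, v, hu, hv, hγu, hτv, huv⟩ := t2_separation hγ
      refine ⟨v ∩ (fun z : ℍ => γ • z) ⁻¹' u, ?_, ?_⟩
      · apply Filter.inter_mem (hv.mem_nhds hτv)
        exact (continuous_SL_smul γ).continuousAt.preimage_mem_nhds (hu.mem_nhds hγu)
      · intro _ z hz hz'
        exact Set.disjoint_left.mp huv hz.2 hz'.1
  choose Uf hUf hUf' using hsep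
  refine ⟨K ∩ ⋂ γ ∈ {γ : SL(2, ℤ) | ((γ • ·) '' K ∩ K).Nonempty}, Uf γ, ?_, ?_⟩
  · apply Filter.inter_mem hKn
    exact (Filter.biInter_mem hF).mpr fun γ _ => hUf γ
  · intro γ z hz hγz
    by_contra hne
    have hγF : γ ∈ {γ : SL(2, ℤ) | ((γ • ·) '' K ∩ K).Nonempty} :=
      ⟨γ • z, ⟨z, hz.1, rfl⟩, hγz.1⟩
    have h1 : z ∈ Uf γ := Set.mem_iInter₂.mp hz.2 γ hγF
    have h2 : γ • z ∈ Uf γ := Set.mem_iInter₂.mp hγz.2 γ hγF
    exact hUf' γ hne z h1 h2

end Fermat.Agent.S20_helper25
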